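/-
S29 row — piece `HCoh`, part 1 (helper271): the factorisation `heckeRep i * γ = γ' * heckeRep j`
exists and is unique for a prime `ℓ ∤ N`; cocycle rule; the induced permutation of `ℙ¹(𝔽_ℓ)`.
Imports only `Fermat.Agent.S29.DefsM`.  Namespace `Fermat.Agent.S29.H271`.
-/
import Fermat.Agent.S29.DefsM

set_option autoImplicit false

namespace Fermat.Agent.S29.H271

open Fermat.Agent.S29
open scoped MatrixGroups
open Matrix

variable {N : ℕ}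

/-! ### Elements of `Γ₀(N)` as integer matrices -/

/-- constructor of elements of `Γ₀(N)` from integer matrices. -/
def HCoh_mk (P : Matrix (Fin 2) (Fin 2) ℤ) (hdet : P.det = 1) (hN : (N : ℤ) ∣ P 1 0) : G0 N :=
  ⟨(⟨P, hdet⟩ : SL(2, ℤ)), CongruenceSubgroup.Gamma0_mem.mpr
    ((ZMod.intCast_zmod_eq_zero_iff_dvd _ _).mpr hN)⟩

@[simp] lemma HCoh_mk_mat (P : Matrix (Fin 2) (Fin 2) ℤ) (hdet : P.det = 1)
    (hN : (N : ℤ) ∣ P 1 0) : (HCoh_mk P hdet hN : G0 N).mat = P := rfl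

lemma HCoh_mat_injective : Function.Injective (G0.mat : G0 N → Matrix (Fin 2) (Fin 2) ℤ) := by
  intro γ γ' h
  apply Subtype.ext
  apply Subtype.ext
  exact h

lemma HCoh_mat_mul (γ γ' : G0 N) : (γ * γ').mat = γ.mat * γ'.mat := rfl

lemma HCoh_mat_one : (1 : G0 N).mat = 1 := rfl

lemma HCoh_mat_pow (γ : G0 N) (n : ℕ) : (γ ^ n).mat = γ.mat ^ n := by
  induction n with
  | zero => simp [HCoh_mat_one]
  | succ n ih => rw [pow_succ, pow_succ, HCoh_mat_mul, ih]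

lemma HCoh_det_mat (γ : G0 N) : γ.mat.det = 1 := γ.1.2

lemma HCoh_dvd_mat (γ : G0 N) : (N : ℤ) ∣ γ.mat 1 0 := by
  have h := γ.2
  rw [CongruenceSubgroup.Gamma0_mem] at h
  exact (ZMod.intCast_zmod_eq_zero_iff_dvd _ _).mp h

lemma HCoh_det_heckeRep (ℓ : ℕ) (i : Option (Fin ℓ)) : (heckeRep ℓ i).det = (ℓ : ℤ) := by
  cases i with
  | none => simp [heckeRep, Matrix.det_fin_two_of]
  | some b => simp [heckeRep, Matrix.det_fin_two_of]

lemma HCoh_heckeRep_none (ℓ : ℕ) : heckeRep ℓ none = !![(ℓ : ℤ), 0; 0, 1] := rfl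

lemma HCoh_heckeRep_some (ℓ : ℕ) (b : Fin ℓ) :
    heckeRep ℓ (some b) = !![1, ((b : ℕ) : ℤ); 0, (ℓ : ℤ)] := rfl

/-- entries of `P * heckeRep none`. -/
lemma HCoh_mul_none (ℓ : ℕ) (P : Matrix (Fin 2) (Fin 2) ℤ) :
    P * heckeRep ℓ none = !![P 0 0 * ℓ, P 0 1; P 1 0 * ℓ, P 1 1] := by
  rw [HCoh_heckeRep_none]
  ext i j
  fin_cases i <;> fin_cases j <;> simp [Matrix.mul_apply, Fin.sum_univ_two]

/-- entries of `P * heckeRep (some b)`. -/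
lemma HCoh_mul_some (ℓ : ℕ) (b : Fin ℓ) (P : Matrix (Fin 2) (Fin 2) ℤ) :
    P * heckeRep ℓ (some b) =
      !![P 0 0, P 0 0 * ((b : ℕ) : ℤ) + P 0 1 * ℓ; P 1 0, P 1 0 * ((b : ℕ) : ℤ) + P 1 1 * ℓ] := by
  rw [HCoh_heckeRep_some]
  ext i j
  fin_cases i <;> fin_cases j <;> simp [Matrix.mul_apply, Fin.sum_univ_two]

/-- lower left entry of `heckeRep i * P`. -/
lemma HCoh_rep_mul_one_zero (ℓ : ℕ) (i : Option (Fin ℓ)) (P : Matrix (Fin 2) (Fin 2) ℤ) :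
    (P 1 0) ∣ (heckeRep ℓ i * P) 1 0 := by
  cases i with
  | none =>
    rw [HCoh_heckeRep_none]
    simp [Matrix.mul_apply, Fin.sum_univ_two]
  | some b =>
    rw [HCoh_heckeRep_some]
    simp [Matrix.mul_apply, Fin.sum_univ_two]

/-! ### Existence of the factorisation -/

lemma HCoh_exists_factor {ℓ : ℕ} (hℓ : ℓ.Prime) (hℓN : ¬ ℓ ∣ N) (M : Matrix (Fin 2) (Fin 2) ℤ)
    (hdet : M.det = (ℓ : ℤ)) (hN : (N : ℤ) ∣ M 1 0) :
    ∃ (j : Option (Fin ℓ)) (γ' : G0 N), M = γ'.mat * heckeRep ℓ j := by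
  have hℓ0 : (ℓ : ℤ) ≠ 0 := by exact_mod_cast hℓ.ne_zero
  rw [Matrix.det_fin_two] at hdet
  by_cases h : (ℓ : ℤ) ∣ M 0 0 ∧ (ℓ : ℤ) ∣ M 1 0
  · obtain ⟨⟨x, hx⟩, ⟨y, hy⟩⟩ := h
    have hcop : IsCoprime (N : ℤ) (ℓ : ℤ) := by
      have : Nat.Coprime N ℓ := ((Nat.Prime.coprime_iff_not_dvd hℓ).mpr hℓN).symm
      exact Nat.isCoprime_iff_coprime.mpr this
    have hNy : (N : ℤ) ∣ y := by
      apply hcop.dvd_of_dvd_mul_left
      rw [← hy]
      exact hN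
    have hd : x * M 1 1 - M 0 1 * y = 1 := by
      have : (ℓ : ℤ) * (x * M 1 1 - M 0 1 * y) = (ℓ : ℤ) * 1 := by
        rw [hx, hy] at hdet
        linear_combination hdet
      exact mul_left_cancel₀ hℓ0 this
    refine ⟨none, HCoh_mk !![x, M 0 1; y, M 1 1] ?_ ?_, ?_⟩
    · rw [Matrix.det_fin_two_of]; exact hd
    · simpa using hNy
    · rw [HCoh_mk_mat, HCoh_mul_none]
      ext i j
      fin_cases i <;> fin_cases j <;> simp [hx, hy, mul_comm]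
  · have : Fact ℓ.Prime := ⟨hℓ⟩
    -- work modulo `ℓ`
    have hdetℓ : ((M 0 0 : ℤ) : ZMod ℓ) * (M 1 1 : ℤ) - (M 0 1 : ℤ) * (M 1 0 : ℤ) = 0 := by
      have := congrArg (Int.cast : ℤ → ZMod ℓ) hdet
      push_cast at this
      simpa using this
    have hex : ∃ t : ZMod ℓ, ((M 0 1 : ℤ) : ZMod ℓ) = t * (M 0 0 : ℤ) ∧
        ((M 1 1 : ℤ) : ZMod ℓ) = t * (M 1 0 : ℤ) := by
      by_cases h0 : ((M 0 0 : ℤ) : ZMod ℓ) = 0
      · have h1 : ((M 1 0 : ℤ) : ZMod ℓ) ≠ 0 := by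
          intro h1
          exact h ⟨(ZMod.intCast_zmod_eq_zero_iff_dvd _ _).mp h0,
            (ZMod.intCast_zmod_eq_zero_iff_dvd _ _).mp h1⟩
        refine ⟨(M 1 1 : ℤ) / (M 1 0 : ℤ), ?_, ?_⟩
        · rw [h0, mul_zero]
          rw [h0, zero_mul, zero_sub, neg_eq_zero] at hdetℓ
          exact (mul_eq_zero.mp hdetℓ).resolve_right h1
        · field_simp
      · refine ⟨(M 0 1 : ℤ) / (M 0 0 : ℤ), ?_, ?_⟩
        · field_simp
        · field_simp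
          linear_combination hdetℓ
    obtain ⟨t, ht0, ht1⟩ := hex
    set b : Fin ℓ := ⟨t.val, ZMod.val_lt t⟩ with hb
    have hbt : ((b : ℕ) : ZMod ℓ) = t := by
      simp [hb]
    have hz0 : (ℓ : ℤ) ∣ M 0 1 - M 0 0 * ((b : ℕ) : ℤ) := by
      rw [← ZMod.intCast_zmod_eq_zero_iff_dvd]
      push_cast
      rw [hbt, ht0]
      ring
    have hz1 : (ℓ : ℤ) ∣ M 1 1 - M 1 0 * ((b : ℕ) : ℤ) := by
      rw [← ZMod.intCast_zmod_eq_zero_iff_dvd]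
      push_cast
      rw [hbt, ht1]
      ring
    obtain ⟨z0, hz0⟩ := hz0
    obtain ⟨z1, hz1⟩ := hz1
    have hd : M 0 0 * z1 - z0 * M 1 0 = 1 := by
      have : (ℓ : ℤ) * (M 0 0 * z1 - z0 * M 1 0) = (ℓ : ℤ) * 1 := by
        linear_combination hdet - M 0 0 * hz1 + M 1 0 * hz0
      exact mul_left_cancel₀ hℓ0 this
    refine ⟨some b, HCoh_mk !![M 0 0, z0; M 1 0, z1] ?_ ?_, ?_⟩
    · rw [Matrix.det_fin_two_of]; exact hd
    · simpa using hN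
    · rw [HCoh_mk_mat, HCoh_mul_some]
      ext i j
      fin_cases i <;> fin_cases j <;> simp
      · linear_combination hz0
      · linear_combination hz1

/-! ### Uniqueness of the factorisation -/

lemma HCoh_not_dvd_sub {ℓ : ℕ} {b b' : Fin ℓ} (hbb : b ≠ b') :
    ¬ (ℓ : ℤ) ∣ ((b : ℕ) : ℤ) - ((b' : ℕ) : ℤ) := by
  intro h
  apply hbb
  have h1 : ((b : ℕ) : ℤ) < ℓ := by exact_mod_cast b.2
  have h2 : ((b' : ℕ) : ℤ) < ℓ := by exact_mod_cast b'.2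
  have h3 : (0 : ℤ) ≤ ((b : ℕ) : ℤ) := by positivity
  have h4 : (0 : ℤ) ≤ ((b' : ℕ) : ℤ) := by positivity
  have h5 : ((b : ℕ) : ℤ) - ((b' : ℕ) : ℤ) = 0 := by
    apply Int.eq_zero_of_abs_lt_dvd h
    rw [abs_lt]
    constructor <;> linarith
  apply Fin.ext
  have : ((b : ℕ) : ℤ) = ((b' : ℕ) : ℤ) := by linarith
  exact_mod_cast this

lemma HCoh_factor_unique {ℓ : ℕ} (hℓ : ℓ.Prime) {j₁ j₂ : Option (Fin ℓ)} {γ₁ γ₂ : G0 N}
    (h : γ₁.mat * heckeRep ℓ j₁ = γ₂.mat * heckeRep ℓ j₂) : j₁ = j₂ ∧ γ₁ = γ₂ := by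
  have hℓ0 : (ℓ : ℤ) ≠ 0 := by exact_mod_cast hℓ.ne_zero
  have hℓp : Prime (ℓ : ℤ) := Nat.prime_iff_prime_int.mp hℓ
  have hnd : ¬ (ℓ : ℤ) ∣ 1 := by
    intro hd
    have := Int.eq_one_of_dvd_one (by positivity) hd
    have h1 : ℓ = 1 := by exact_mod_cast this
    exact hℓ.one_lt.ne' h1
  have hd1 := HCoh_det_mat γ₁
  have hd2 := HCoh_det_mat γ₂
  rw [Matrix.det_fin_two] at hd1 hd2
  set P := γ₁.mat with hP
  set Q := γ₂.mat with hQ
  have key : ∀ {j : Option (Fin ℓ)}, P * heckeRep ℓ j = Q * heckeRep ℓ j → γ₁ = γ₂ := by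
    intro j hj
    apply HCoh_mat_injective
    show P = Q
    have h3 : P * (heckeRep ℓ j * (heckeRep ℓ j).adjugate) =
        Q * (heckeRep ℓ j * (heckeRep ℓ j).adjugate) := by
      rw [← Matrix.mul_assoc, hj, Matrix.mul_assoc]
    rw [Matrix.mul_adjugate, HCoh_det_heckeRep, Matrix.mul_smul, Matrix.mul_smul, Matrix.mul_one,
      Matrix.mul_one] at h3
    ext i k
    have h4 := congrFun (congrFun h3 i) k
    simp only [Matrix.smul_apply, smul_eq_mul] at h4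
    exact mul_left_cancel₀ hℓ0 h4
  cases j₁ with
  | none =>
    cases j₂ with
    | none => exact ⟨rfl, key h⟩
    | some b' =>
      exfalso
      rw [HCoh_mul_none, HCoh_mul_some] at h
      have e00 := congrFun (congrFun h 0) 0
      have e10 := congrFun (congrFun h 1) 0
      simp at e00 e10
      apply hnd
      refine ⟨P 0 0 * Q 1 1 - Q 0 1 * P 1 0, ?_⟩
      rw [← hd2, ← e00, ← e10]
      ring
  | some b =>
    cases j₂ with
    | none =>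
      exfalso
      rw [HCoh_mul_none, HCoh_mul_some] at h
      have e00 := congrFun (congrFun h 0) 0
      have e10 := congrFun (congrFun h 1) 0
      simp at e00 e10
      apply hnd
      refine ⟨Q 0 0 * P 1 1 - P 0 1 * Q 1 0, ?_⟩
      rw [← hd1, e00, e10]
      ring
    | some b' =>
      by_cases hbb : b = b'
      · subst hbb
        exact ⟨rfl, key h⟩
      · exfalso
        rw [HCoh_mul_some, HCoh_mul_some] at h
        have e00 := congrFun (congrFun h 0) 0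
        have e10 := congrFun (congrFun h 1) 0
        have e01 := congrFun (congrFun h 0) 1
        have e11 := congrFun (congrFun h 1) 1
        simp at e00 e10 e01 e11
        have hnb := HCoh_not_dvd_sub hbb
        have f0 : (ℓ : ℤ) ∣ P 0 0 * (((b : ℕ) : ℤ) - ((b' : ℕ) : ℤ)) :=
          ⟨Q 0 1 - P 0 1, by rw [← e00] at e01; linear_combination e01⟩
        have f1 : (ℓ : ℤ) ∣ P 1 0 * (((b : ℕ) : ℤ) - ((b' : ℕ) : ℤ)) :=
          ⟨Q 1 1 - P 1 1, by rw [← e10] at e11; linear_combination e11⟩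
        have g0 : (ℓ : ℤ) ∣ P 0 0 := (hℓp.dvd_or_dvd f0).resolve_right hnb
        have g1 : (ℓ : ℤ) ∣ P 1 0 := (hℓp.dvd_or_dvd f1).resolve_right hnb
        apply hnd
        rw [← hd1]
        exact dvd_sub (Dvd.dvd.mul_right g0 _) (Dvd.dvd.mul_left g1 _)

/-! ### The chosen factorisation `heckeFac` -/

lemma HCoh_exists_isHeckeFactor {ℓ : ℕ} (hℓ : ℓ.Prime) (hℓN : ¬ ℓ ∣ N) (γ : G0 N)
    (i : Option (Fin ℓ)) : ∃ q : Option (Fin ℓ) × G0 N, IsHeckeFactor ℓ γ i q := by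
  obtain ⟨j, γ', h⟩ := HCoh_exists_factor hℓ hℓN (heckeRep ℓ i * γ.mat)
    (by rw [Matrix.det_mul, HCoh_det_heckeRep, HCoh_det_mat, mul_one])
    ((HCoh_dvd_mat γ).trans (HCoh_rep_mul_one_zero ℓ i γ.mat))
  exact ⟨(j, γ'), h⟩

lemma HCoh_heckeFac_spec {ℓ : ℕ} (hℓ : ℓ.Prime) (hℓN : ¬ ℓ ∣ N) (γ : G0 N)
    (i : Option (Fin ℓ)) : IsHeckeFactor ℓ γ i (heckeFac N ℓ γ i) := by
  have h := HCoh_exists_isHeckeFactor hℓ hℓN γ i
  unfold heckeFac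
  rw [dif_pos h]
  exact Classical.choose_spec h

lemma HCoh_heckeFac_eq {ℓ : ℕ} (hℓ : ℓ.Prime) (hℓN : ¬ ℓ ∣ N) {γ : G0 N}
    {i : Option (Fin ℓ)} {q : Option (Fin ℓ) × G0 N} (h : IsHeckeFactor ℓ γ i q) :
    heckeFac N ℓ γ i = q := by
  have h' := HCoh_heckeFac_spec hℓ hℓN γ i
  unfold IsHeckeFactor at h h'
  obtain ⟨h1, h2⟩ := HCoh_factor_unique hℓ (h'.symm.trans h)
  exact Prod.ext h1 h2

/-- the matrix identity defining `heckeFac`. -/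
lemma HCoh_heckeFac_mat {ℓ : ℕ} (hℓ : ℓ.Prime) (hℓN : ¬ ℓ ∣ N) (γ : G0 N)
    (i : Option (Fin ℓ)) :
    heckeRep ℓ i * γ.mat = (heckeFac N ℓ γ i).2.mat * heckeRep ℓ (heckeFac N ℓ γ i).1 :=
  HCoh_heckeFac_spec hℓ hℓN γ i

/-! ### Cocycle rule -/

lemma HCoh_heckeFac_one {ℓ : ℕ} (hℓ : ℓ.Prime) (hℓN : ¬ ℓ ∣ N) (i : Option (Fin ℓ)) :
    heckeFac N ℓ (1 : G0 N) i = (i, 1) := by
  apply HCoh_heckeFac_eq hℓ hℓN
  unfold IsHeckeFactor
  simp [HCoh_mat_one]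

lemma HCoh_heckeFac_mul {ℓ : ℕ} (hℓ : ℓ.Prime) (hℓN : ¬ ℓ ∣ N) (γ γ' : G0 N)
    (i : Option (Fin ℓ)) :
    heckeFac N ℓ (γ * γ') i =
      ((heckeFac N ℓ γ' (heckeFac N ℓ γ i).1).1,
        (heckeFac N ℓ γ i).2 * (heckeFac N ℓ γ' (heckeFac N ℓ γ i).1).2) := by
  apply HCoh_heckeFac_eq hℓ hℓN
  unfold IsHeckeFactor
  simp only [HCoh_mat_mul]
  rw [← Matrix.mul_assoc, HCoh_heckeFac_mat hℓ hℓN γ i, Matrix.mul_assoc,
    HCoh_heckeFac_mat hℓ hℓN γ' _, Matrix.mul_assoc]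

/-- the permutation of `ℙ¹(𝔽_ℓ)` induced by `γ`. -/
noncomputable def HCoh_perm {ℓ : ℕ} (hℓ : ℓ.Prime) (hℓN : ¬ ℓ ∣ N) (γ : G0 N) :
    Equiv.Perm (Option (Fin ℓ)) where
  toFun i := (heckeFac N ℓ γ i).1
  invFun i := (heckeFac N ℓ γ⁻¹ i).1
  left_inv i := by
    have h := HCoh_heckeFac_mul hℓ hℓN γ γ⁻¹ i
    rw [mul_inv_cancel, HCoh_heckeFac_one hℓ hℓN] at h
    exact (congrArg Prod.fst h).symm
  right_inv i := by
    have h := HCoh_heckeFac_mul hℓ hℓN γ⁻¹ γ i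
    rw [inv_mul_cancel, HCoh_heckeFac_one hℓ hℓN] at h
    exact (congrArg Prod.fst h).symm

@[simp] lemma HCoh_perm_apply {ℓ : ℕ} (hℓ : ℓ.Prime) (hℓN : ¬ ℓ ∣ N) (γ : G0 N)
    (i : Option (Fin ℓ)) : HCoh_perm hℓ hℓN γ i = (heckeFac N ℓ γ i).1 := rfl

end Fermat.Agent.S29.H271
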