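/-
S29 row — piece `HCoh` (helper271): `heckeCoh` preserves parabolic characters.
Exact statement of `SkeletonM.isParHom_heckeCoh` (row-lead helper269), here in namespace
`Fermat.Agent.S29.H271`.  Imports only `Fermat.Agent.S29.DefsM` (via `HCohBasic`).

Math: `αᵢ γ = γᵢ α_{π(i)}` (existence/uniqueness in `HCohBasic`), cocycle rule
`(γγ')ᵢ = γᵢ γ'_{π_γ(i)}`, so `heckeCoh c` is additive.  On a cycle `i, πi, …, π^{k-1} i` of `π_γ` the
product `γᵢ γ_{πi} ⋯ = αᵢ γᵏ αᵢ⁻¹` has the trace of `γᵏ` (parabolic case) resp. is torsion (elliptic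
case), so `c` kills it; summing over the cycles gives `heckeCoh c γ = 0`.
-/
import Fermat.Agent.S29.H271.HCohBasic

set_option autoImplicit false

namespace Fermat.Agent.S29.H271

open Fermat.Agent.S29
open scoped MatrixGroups
open Matrix

variable {N : ℕ}

/-! ### Orbit sums -/

/-- stable finsets have vanishing sum if all sums over closed orbit segments vanish. -/
lemma HCoh_sum_stable {X : Type*} [Fintype X] [DecidableEq X] {A : Type*} [AddCommMonoid A]
    (π : Equiv.Perm X) (f : X → A)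
    (h : ∀ (i : X) (k : ℕ), 0 < k → (π ^ k) i = i → ∑ m ∈ Finset.range k, f ((π ^ m) i) = 0)
    (s : Finset X) (hs : ∀ i ∈ s, π i ∈ s) : ∑ i ∈ s, f i = 0 := by
  induction s using Finset.strongInduction with
  | H s ih =>
    rcases s.eq_empty_or_nonempty with rfl | ⟨i₀, hi₀⟩
    · simp
    · -- the orbit of `i₀`
      have hper : i₀ ∈ Function.periodicPts π := by
        refine Function.mk_mem_periodicPts (orderOf_pos π) ?_
        show (⇑π)^[orderOf π] i₀ = i₀
        rw [Equiv.Perm.iterate_eq_pow, pow_orderOf_eq_one]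
        rfl
      set k := Function.minimalPeriod π i₀ with hk
      have hk0 : 0 < k := Function.minimalPeriod_pos_of_mem_periodicPts hper
      have hkk : (π ^ k) i₀ = i₀ := by
        have := Function.isPeriodicPt_minimalPeriod π i₀
        rw [← Equiv.Perm.iterate_eq_pow]
        exact this
      set O : Finset X := (Finset.range k).image (fun m => (π ^ m) i₀) with hO
      have hpow_mem : ∀ m : ℕ, (π ^ m) i₀ ∈ s := by
        intro m
        induction m with
        | zero => simpa using hi₀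
        | succ m ihm =>
          rw [pow_succ', Equiv.Perm.mul_apply]
          exact hs _ ihm
      have hOs : O ⊆ s := by
        intro x hx
        rw [hO, Finset.mem_image] at hx
        obtain ⟨m, -, rfl⟩ := hx
        exact hpow_mem m
      have hinj : Set.InjOn (fun m => (π ^ m) i₀) (Finset.range k : Set ℕ) := by
        intro m hm m' hm' hmm
        have := Function.iterate_injOn_Iio_minimalPeriod (f := π) (x := i₀)
        apply this
        · simpa using hm
        · simpa using hm'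
        · simpa [Equiv.Perm.iterate_eq_pow] using hmm
      have hsumO : ∑ i ∈ O, f i = 0 := by
        rw [hO, Finset.sum_image hinj]
        exact h i₀ k hk0 hkk
      have hi₀O : i₀ ∈ O := by
        rw [hO, Finset.mem_image]
        exact ⟨0, Finset.mem_range.mpr hk0, by simp⟩
      have hOstab : ∀ i, π i ∈ O → i ∈ O := by
        intro i hi
        rw [hO, Finset.mem_image] at hi ⊢
        obtain ⟨m, hm, hmi⟩ := hi
        rcases Nat.eq_zero_or_pos m with rfl | hm0
        · -- `π i = i₀ = π^k i₀`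
          refine ⟨k - 1, Finset.mem_range.mpr (by omega), ?_⟩
          apply π.injective
          rw [← Equiv.Perm.mul_apply, ← pow_succ', Nat.sub_add_cancel hk0, hkk]
          simpa using hmi
        · refine ⟨m - 1, Finset.mem_range.mpr (by have := Finset.mem_range.mp hm; omega), ?_⟩
          apply π.injective
          rw [← Equiv.Perm.mul_apply, ← pow_succ', Nat.sub_add_cancel hm0]
          exact hmi
      have hdiff : ∑ i ∈ s \ O, f i = 0 := by
        apply ih (s \ O)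
        · exact Finset.sdiff_ssubset hOs ⟨i₀, hi₀O⟩
        · intro i hi
          rw [Finset.mem_sdiff] at hi ⊢
          exact ⟨hs i hi.1, fun hc => hi.2 (hOstab i hc)⟩
      rw [← Finset.sum_sdiff hOs, hdiff, hsumO, add_zero]

lemma HCoh_sum_eq_zero_of_orbits {X : Type*} [Fintype X] [DecidableEq X] {A : Type*}
    [AddCommMonoid A] (π : Equiv.Perm X) (f : X → A)
    (h : ∀ (i : X) (k : ℕ), 0 < k → (π ^ k) i = i → ∑ m ∈ Finset.range k, f ((π ^ m) i) = 0) :
    ∑ i, f i = 0 :=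
  HCoh_sum_stable π f h Finset.univ (fun _ _ => Finset.mem_univ _)

/-! ### Iterating the cocycle rule -/

lemma HCoh_map_one {A : Type*} [AddCommGroup A] {c : G0 N → A} (hc : IsParHom c) : c 1 = 0 := by
  have h := hc.map_mul 1 1
  rw [mul_one] at h
  exact left_eq_add.mp h

lemma HCoh_heckeFac_pow_fst {ℓ : ℕ} (hℓ : ℓ.Prime) (hℓN : ¬ ℓ ∣ N) (γ : G0 N) (k : ℕ)
    (i : Option (Fin ℓ)) :
    (heckeFac N ℓ (γ ^ k) i).1 = ((HCoh_perm hℓ hℓN γ) ^ k) i := by
  induction k with
  | zero => simp [HCoh_heckeFac_one hℓ hℓN]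
  | succ k ih =>
    rw [pow_succ, HCoh_heckeFac_mul hℓ hℓN, pow_succ', Equiv.Perm.mul_apply, HCoh_perm_apply, ih]

lemma HCoh_map_heckeFac_pow {ℓ : ℕ} (hℓ : ℓ.Prime) (hℓN : ¬ ℓ ∣ N) {A : Type*} [AddCommGroup A]
    {c : G0 N → A} (hc : IsParHom c) (γ : G0 N) (k : ℕ) (i : Option (Fin ℓ)) :
    c (heckeFac N ℓ (γ ^ k) i).2 =
      ∑ m ∈ Finset.range k, c (heckeFac N ℓ γ (((HCoh_perm hℓ hℓN γ) ^ m) i)).2 := by
  induction k with
  | zero => simp [HCoh_heckeFac_one hℓ hℓN, HCoh_map_one hc]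
  | succ k ih =>
    rw [pow_succ, HCoh_heckeFac_mul hℓ hℓN, Finset.sum_range_succ, ← ih]
    simp only
    rw [hc.map_mul, HCoh_heckeFac_pow_fst hℓ hℓN]

/-! ### Transfer of trace and torsion along `α G = Γ α` -/

lemma HCoh_cancel_right {ℓ : ℕ} (hℓ0 : ℓ ≠ 0) (i : Option (Fin ℓ))
    {P Q : Matrix (Fin 2) (Fin 2) ℤ} (h : P * heckeRep ℓ i = Q * heckeRep ℓ i) : P = Q := by
  have hℓ0' : (ℓ : ℤ) ≠ 0 := by exact_mod_cast hℓ0
  have h3 : P * (heckeRep ℓ i * (heckeRep ℓ i).adjugate) =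
      Q * (heckeRep ℓ i * (heckeRep ℓ i).adjugate) := by
    rw [← Matrix.mul_assoc, h, Matrix.mul_assoc]
  rw [Matrix.mul_adjugate, HCoh_det_heckeRep, Matrix.mul_smul, Matrix.mul_smul, Matrix.mul_one,
    Matrix.mul_one] at h3
  ext a b
  have h4 := congrFun (congrFun h3 a) b
  simp only [Matrix.smul_apply, smul_eq_mul] at h4
  exact mul_left_cancel₀ hℓ0' h4

lemma HCoh_trace_eq {ℓ : ℕ} (hℓ0 : ℓ ≠ 0) (i : Option (Fin ℓ))
    {G Γ : Matrix (Fin 2) (Fin 2) ℤ} (h : heckeRep ℓ i * G = Γ * heckeRep ℓ i) :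
    Γ.trace = G.trace := by
  have hℓ0' : (ℓ : ℤ) ≠ 0 := by exact_mod_cast hℓ0
  have h1 : (Γ * heckeRep ℓ i * (heckeRep ℓ i).adjugate).trace =
      (heckeRep ℓ i * G * (heckeRep ℓ i).adjugate).trace := by rw [h]
  rw [Matrix.mul_assoc, Matrix.mul_adjugate, HCoh_det_heckeRep, Matrix.mul_smul, Matrix.mul_one,
    Matrix.trace_mul_comm, ← Matrix.mul_assoc, Matrix.adjugate_mul, HCoh_det_heckeRep,
    Matrix.smul_mul, Matrix.one_mul, Matrix.trace_smul, Matrix.trace_smul, smul_eq_mul,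
    smul_eq_mul] at h1
  exact mul_left_cancel₀ hℓ0' h1

lemma HCoh_pow_transfer {α G Γ : Matrix (Fin 2) (Fin 2) ℤ} (h : α * G = Γ * α) (n : ℕ) :
    α * G ^ n = Γ ^ n * α := by
  induction n with
  | zero => simp
  | succ n ih =>
    rw [pow_succ, ← Matrix.mul_assoc, ih, Matrix.mul_assoc, h, ← Matrix.mul_assoc, ← pow_succ]

/-! ### Traces of powers of parabolic matrices -/

lemma HCoh_cayley {G : Matrix (Fin 2) (Fin 2) ℤ} (hdet : G.det = 1) :
    G * G = G.trace • G - 1 := by
  rw [Matrix.det_fin_two] at hdet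
  rw [Matrix.trace_fin_two]
  ext a b
  fin_cases a <;> fin_cases b <;>
    simp only [Matrix.mul_apply, Fin.sum_univ_two, Matrix.sub_apply, Matrix.smul_apply,
      smul_eq_mul, Matrix.one_apply, Fin.zero_eta, Fin.mk_one, Fin.isValue, if_true,
      zero_ne_one, one_ne_zero, if_false] <;>
    first | ring1 | linear_combination (-1 : ℤ) * hdet

lemma HCoh_trace_pow_rec {G : Matrix (Fin 2) (Fin 2) ℤ} (hdet : G.det = 1) (k : ℕ) :
    (G ^ (k + 2)).trace = G.trace * (G ^ (k + 1)).trace - (G ^ k).trace := by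
  have h : G ^ (k + 2) = G.trace • G ^ (k + 1) - G ^ k := by
    rw [pow_add, pow_two, HCoh_cayley hdet, Matrix.mul_sub, Matrix.mul_smul, Matrix.mul_one,
      ← pow_succ]
  rw [h, Matrix.trace_sub, Matrix.trace_smul, smul_eq_mul]

lemma HCoh_trace_pow {G : Matrix (Fin 2) (Fin 2) ℤ} (hdet : G.det = 1)
    (ht : G.trace = 2 ∨ G.trace = -2) (k : ℕ) :
    (G ^ k).trace = 2 ∨ (G ^ k).trace = -2 := by
  have h0 : (G ^ 0).trace = 2 := by simp
  rcases ht with ht | ht
  · left
    induction k using Nat.twoStepInduction with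
    | zero => exact h0
    | one => simpa using ht
    | more k ih1 ih2 => rw [HCoh_trace_pow_rec hdet, ht, ih1, ih2]; norm_num
  · have key : ∀ k : ℕ, (G ^ k).trace = 2 * (-1) ^ k := by
      intro k
      induction k using Nat.twoStepInduction with
      | zero => simp
      | one => simpa using ht
      | more k ih1 ih2 => rw [HCoh_trace_pow_rec hdet, ht, ih1, ih2]; ring
    rcases Nat.even_or_odd k with hk | hk
    · left; rw [key, hk.neg_one_pow]; norm_num
    · right; rw [key, hk.neg_one_pow]; norm_num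

/-! ### The closed-orbit product -/

/-- for a closed orbit segment (`π^k i = i`) the accumulated factor `Γ` satisfies
`αᵢ γᵏ = Γ αᵢ`. -/
lemma HCoh_closed_mat {ℓ : ℕ} (hℓ : ℓ.Prime) (hℓN : ¬ ℓ ∣ N) (γ : G0 N) (k : ℕ)
    (i : Option (Fin ℓ)) (hi : ((HCoh_perm hℓ hℓN γ) ^ k) i = i) :
    heckeRep ℓ i * γ.mat ^ k = (heckeFac N ℓ (γ ^ k) i).2.mat * heckeRep ℓ i := by
  have h := HCoh_heckeFac_mat hℓ hℓN (γ ^ k) i
  rw [HCoh_heckeFac_pow_fst hℓ hℓN, hi, HCoh_mat_pow] at h
  exact h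

/-! ### The piece -/

/-- PIECE `HCoh`: for a prime `ℓ ∤ N`, `heckeCoh` preserves parabolic characters. -/
theorem isParHom_heckeCoh (N : ℕ) [NeZero N] {ℓ : ℕ} (hℓ : ℓ.Prime) (hℓN : ¬ ℓ ∣ N)
    {A : Type*} [AddCommGroup A] {c : G0 N → A} (hc : IsParHom c) :
    IsParHom (heckeCoh N ℓ c) := by
  classical
  refine ⟨?_, ?_, ?_⟩
  · intro γ γ'
    unfold heckeCoh
    have h1 : ∀ i : Option (Fin ℓ), c (heckeFac N ℓ (γ * γ') i).2 =
        c (heckeFac N ℓ γ i).2 + c (heckeFac N ℓ γ' (HCoh_perm hℓ hℓN γ i)).2 := by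
      intro i
      rw [HCoh_heckeFac_mul hℓ hℓN]
      simp only
      rw [hc.map_mul]
      rfl
    rw [Finset.sum_congr rfl (fun i _ => h1 i), Finset.sum_add_distrib]
    congr 1
    exact Equiv.sum_comp (HCoh_perm hℓ hℓN γ) (fun j => c (heckeFac N ℓ γ' j).2)
  · intro γ hγ
    unfold heckeCoh
    apply HCoh_sum_eq_zero_of_orbits (HCoh_perm hℓ hℓN γ)
    intro i k hk hi
    rw [← HCoh_map_heckeFac_pow hℓ hℓN hc]
    apply hc.parabolic
    have hm := HCoh_closed_mat hℓ hℓN γ k i hi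
    rw [HCoh_trace_eq hℓ.ne_zero i hm]
    exact HCoh_trace_pow (HCoh_det_mat γ) hγ k
  · intro γ n hn hγn
    unfold heckeCoh
    apply HCoh_sum_eq_zero_of_orbits (HCoh_perm hℓ hℓN γ)
    intro i k hk hi
    rw [← HCoh_map_heckeFac_pow hℓ hℓN hc]
    apply hc.elliptic _ n hn
    have hm := HCoh_closed_mat hℓ hℓN γ k i hi
    have hm2 := HCoh_pow_transfer hm n
    have h1 : (γ.mat ^ k) ^ n = 1 := by
      rw [← pow_mul, mul_comm, pow_mul, ← HCoh_mat_pow, hγn, HCoh_mat_one, one_pow]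
    rw [h1, Matrix.mul_one] at hm2
    apply HCoh_mat_injective
    rw [HCoh_mat_pow, HCoh_mat_one]
    apply HCoh_cancel_right hℓ.ne_zero i
    rw [← hm2, Matrix.one_mul]

end Fermat.Agent.S29.H271
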