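/-
S29 layer M, piece E2, sub-piece (A) of `origin/helper201:Fermat/Agent/S29/H201/PeSkeleton.lean`
(helper271): the transfer Hecke operator `heckeHom` of `H201/Transfer.lean` preserves the property
"vanishes on parabolic elements (`tr² = 4`) and on elements of finite order" (cycle argument).

`heckeHom_mem_pe'` states `IsPe χ → IsPe (heckeHom ℓ hℓN A χ)` with `IsPe` unfolded (the definition
`H201.IsPe` lives in a skeleton file); it is definitionally the skeleton statement.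
-/
import Fermat.Agent.S29.H201.Transfer
import Fermat.Agent.S29.H271.HCoh

set_option autoImplicit false

open CongruenceSubgroup Matrix.SpecialLinearGroup
open scoped MatrixGroups
open P2MW.S_ModularForm_heckeT_slash_eq_self_of_mem_Gamma0.ModularForm.HeckeSlashInvariance

namespace Fermat.Agent.S29.H271

open Fermat.Agent.S29.H201

variable {N : ℕ} {ℓ : ℕ} [Fact ℓ.Prime]

local notation "hRep" =>
  P2MW.S_ModularForm_heckeT_slash_eq_self_of_mem_Gamma0.ModularForm.HeckeSlashInvariance.heckeRep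

lemma PeCycle_redMatrix_pow (g : SL(2, ℤ)) (k : ℕ) :
    redMatrix ℓ (g ^ k) = redMatrix ℓ g ^ k := by
  induction k with
  | zero => simp [redMatrix_one]
  | succ k ih => rw [pow_succ, redMatrix_mul, ih, pow_succ']

lemma PeCycle_permOf_pow (γ : Gamma0 N) (k : ℕ) :
    (permOf (γ ^ k) : Equiv.Perm (OnePoint (ZMod ℓ))) = permOf γ ^ k := by
  unfold permOf
  rw [Subgroup.coe_pow, PeCycle_redMatrix_pow]
  exact map_pow (MulAction.toPermHom (GL (Fin 2) (ZMod ℓ)) (OnePoint (ZMod ℓ))) _ k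

lemma PeCycle_map_trf_pow (hℓN : ¬ ℓ ∣ N) {A : Type*} [AddCommGroup A]
    (χ : Additive (Gamma0 N) →+ A) (γ : Gamma0 N) (k : ℕ) (x : OnePoint (ZMod ℓ)) :
    χ (Additive.ofMul (trf hℓN (γ ^ k) x)) =
      ∑ m ∈ Finset.range k, χ (Additive.ofMul (trf hℓN γ ((permOf γ ^ m) x))) := by
  induction k with
  | zero => simp [trf_one]
  | succ k ih =>
    rw [pow_succ, trf_mul, Finset.sum_range_succ, ← ih, ofMul_mul, map_add, ← permOf_apply,
      PeCycle_permOf_pow]

/-- on a closed orbit segment the accumulated transfer element is conjugate (in `GL₂(ℝ)`) to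
`γ ^ k`. -/
lemma PeCycle_closed (hℓN : ¬ ℓ ∣ N) (γ : Gamma0 N) (k : ℕ) (x : OnePoint (ZMod ℓ))
    (hx : (permOf γ ^ k) x = x) :
    mapGL ℝ ((trf hℓN (γ ^ k) x : Gamma0 N) : SL(2, ℤ)) =
      hRep ℓ x * mapGL ℝ ((γ ^ k : Gamma0 N) : SL(2, ℤ)) * (hRep ℓ x)⁻¹ := by
  have h := trf_spec hℓN (γ ^ k) x
  rw [← permOf_apply, PeCycle_permOf_pow, hx] at h
  rw [h, mul_inv_cancel_right]

lemma PeCycle_trace_mapGL (g : SL(2, ℤ)) :
    ((mapGL ℝ g : GL (Fin 2) ℝ) : Matrix (Fin 2) (Fin 2) ℝ).trace =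
      (((g : Matrix (Fin 2) (Fin 2) ℤ).trace : ℤ) : ℝ) := by
  rw [mapGL_coe_matrix, Matrix.trace_fin_two, Matrix.trace_fin_two]
  simp

lemma PeCycle_trace_sq {G : Matrix (Fin 2) (Fin 2) ℤ} (hdet : G.det = 1)
    (ht : G.trace ^ 2 = 4) (k : ℕ) : (G ^ k).trace ^ 2 = 4 := by
  have h2 : G.trace = 2 ∨ G.trace = -2 := by
    have : (G.trace - 2) * (G.trace + 2) = 0 := by linear_combination ht
    rcases mul_eq_zero.mp this with h | h
    · left; linarith
    · right; linarith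
  rcases HCoh_trace_pow hdet h2 k with h | h <;> rw [h] <;> norm_num

/-- **Sub-piece (A)**: `heckeHom` preserves "vanishing on parabolic and finite-order elements". -/
theorem heckeHom_mem_pe' (hℓN : ¬ ℓ ∣ N) {A : Type*} [AddCommGroup A]
    {χ : Additive (Gamma0 N) →+ A}
    (hχ : (∀ γ : Gamma0 N,
        ((γ : SL(2, ℤ)) : Matrix (Fin 2) (Fin 2) ℤ).trace ^ 2 = 4 → χ (Additive.ofMul γ) = 0) ∧
      (∀ γ : Gamma0 N, IsOfFinOrder γ → χ (Additive.ofMul γ) = 0)) :
    (∀ γ : Gamma0 N,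
        ((γ : SL(2, ℤ)) : Matrix (Fin 2) (Fin 2) ℤ).trace ^ 2 = 4 →
          heckeHom ℓ hℓN A χ (Additive.ofMul γ) = 0) ∧
      (∀ γ : Gamma0 N, IsOfFinOrder γ → heckeHom ℓ hℓN A χ (Additive.ofMul γ) = 0) := by
  classical
  obtain ⟨hpar, hfin⟩ := hχ
  refine ⟨fun γ hγ => ?_, fun γ hγ => ?_⟩
  · rw [heckeHom_apply]
    apply HCoh_sum_eq_zero_of_orbits (permOf γ)
    intro x k _ hx
    rw [← PeCycle_map_trf_pow hℓN]
    apply hpar
    have hc := PeCycle_closed hℓN γ k x hx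
    have h1 := congrArg (fun M : GL (Fin 2) ℝ => (M : Matrix (Fin 2) (Fin 2) ℝ).trace) hc
    simp only [Matrix.GeneralLinearGroup.coe_mul] at h1
    rw [Matrix.trace_units_conj, PeCycle_trace_mapGL, PeCycle_trace_mapGL] at h1
    have h2 : ((trf hℓN (γ ^ k) x : Gamma0 N) : SL(2, ℤ)).1.trace =
        (((γ ^ k : Gamma0 N) : SL(2, ℤ)) : Matrix (Fin 2) (Fin 2) ℤ).trace := by
      exact_mod_cast h1
    rw [h2, Subgroup.coe_pow, Matrix.SpecialLinearGroup.coe_pow]
    exact PeCycle_trace_sq (γ : SL(2, ℤ)).2 hγ k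
  · rw [heckeHom_apply]
    apply HCoh_sum_eq_zero_of_orbits (permOf γ)
    intro x k _ hx
    rw [← PeCycle_map_trf_pow hℓN]
    apply hfin
    have hc := PeCycle_closed hℓN γ k x hx
    obtain ⟨n, hn, hγn⟩ := isOfFinOrder_iff_pow_eq_one.mp (hγ.pow (n := k))
    rw [isOfFinOrder_iff_pow_eq_one]
    refine ⟨n, hn, ?_⟩
    apply Subtype.ext
    apply mapGL_injective (S := ℝ)
    rw [Subgroup.coe_pow, map_pow, hc, conj_pow, ← map_pow, ← Subgroup.coe_pow, hγn]
    simp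

end Fermat.Agent.S29.H271
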